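/-
S15 / Dict / Uniq (architect helper271): a place of a function field `F = K(X,Y)` centred at a
point `(a,b)` where `Y - b` is a local parameter "by an explicit relation" is unique.
Elementary: induction on the order, no Noetherian / DVR theory.
-/
import Fermat.Agent.S24.FFBasic

set_option autoImplicit false

namespace Fermat.Agent.S15.Dict

open AlgebraicCurve Fermat.Agent.S24

variable {K F : Type*} [Field K] [Field F] [Algebra K F]

/-- Step 1: modulo `Y - b` (after multiplication by `g`) every element of `K[X,Y]` is a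
constant. -/
theorem exists_const_of_mem_adjoin (X Y : F) (a b : K) (g h : F)
    (hg : g ∈ Algebra.adjoin K {X, Y}) (hh : h ∈ Algebra.adjoin K {X, Y})
    (hrel : g * (X - algebraMap K F a) = (Y - algebraMap K F b) * h)
    (t : F) (ht : t ∈ Algebra.adjoin K {X, Y}) :
    ∃ c : K, ∃ t₁ ∈ Algebra.adjoin K {X, Y},
      g * (t - algebraMap K F c) = (Y - algebraMap K F b) * t₁ := by
  induction ht using Algebra.adjoin_induction with
  | mem x hx =>
    rcases hx with rfl | hx
    · exact ⟨a, h, hh, hrel⟩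
    · rw [Set.mem_singleton_iff] at hx
      subst hx
      exact ⟨b, g, hg, mul_comm _ _⟩
  | algebraMap r =>
    exact ⟨r, 0, zero_mem _, by rw [sub_self, mul_zero, mul_zero]⟩
  | add x y _ _ hx hy =>
    obtain ⟨c, t₁, ht₁, e₁⟩ := hx
    obtain ⟨c', t₁', ht₁', e₁'⟩ := hy
    refine ⟨c + c', t₁ + t₁', add_mem ht₁ ht₁', ?_⟩
    rw [map_add]
    linear_combination e₁ + e₁'
  | mul x y _ hy' hx hy =>
    obtain ⟨c, t₁, ht₁, e₁⟩ := hx
    obtain ⟨c', t₁', ht₁', e₁'⟩ := hy
    refine ⟨c * c', t₁ * y + algebraMap K F c * t₁',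
      add_mem (mul_mem ht₁ hy') (mul_mem (Subalgebra.algebraMap_mem _ c) ht₁'), ?_⟩
    rw [map_mul]
    linear_combination y * e₁ + algebraMap K F c * e₁'

/-- elements of `K[X,Y]` are regular at a place centred at `(a,b)`. -/
theorem ord_nonneg_of_mem_adjoin (X Y : F) (a b : K) (v : Place K F)
    (hX : 0 < v.ord (X - algebraMap K F a)) (hY : 0 < v.ord (Y - algebraMap K F b))
    (t : F) (ht : t ∈ Algebra.adjoin K {X, Y}) : 0 ≤ v.ord t := by
  rw [← FF.mem_iff_ord_nonneg]
  induction ht using Algebra.adjoin_induction with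
  | mem x hx =>
    rcases hx with rfl | hx
    · have h1 : x - algebraMap K F a ∈ v.toValuationSubring := FF.mem_of_ord_nonneg v hX.le
      have h2 := add_mem h1 (v.algebraMap_mem' a)
      rwa [sub_add_cancel] at h2
    · rw [Set.mem_singleton_iff] at hx
      subst hx
      have h1 : x - algebraMap K F b ∈ v.toValuationSubring := FF.mem_of_ord_nonneg v hY.le
      have h2 := add_mem h1 (v.algebraMap_mem' b)
      rwa [sub_add_cancel] at h2
  | algebraMap r => exact v.algebraMap_mem' r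
  | add x y _ _ hx hy => exact add_mem hx hy
  | mul x y _ _ hx hy => exact mul_mem hx hy

/-- an element congruent to a nonzero constant is a unit at the place. -/
private theorem ord_eq_zero_of_const (z : Place K F) {g π t t₁ : F} {c : K} (hg0 : g ≠ 0)
    (hzg : z.ord g = 0) (hzπ : 0 < z.ord π) (hzt₁ : 0 ≤ z.ord t₁) (hc : c ≠ 0)
    (e : g * (t - algebraMap K F c) = π * t₁) : z.ord t = 0 := by
  have hcF : algebraMap K F c ≠ 0 := (map_ne_zero _).2 hc
  rcases eq_or_ne (t - algebraMap K F c) 0 with h0 | h0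
  · rw [sub_eq_zero.1 h0]
    exact FF.ord_algebraMap z c
  · have hprod : π * t₁ ≠ 0 := e ▸ mul_ne_zero hg0 h0
    have hπ0 : π ≠ 0 := left_ne_zero_of_mul hprod
    have ht₁0 : t₁ ≠ 0 := right_ne_zero_of_mul hprod
    have h1 := congrArg z.ord e
    rw [z.ord_mul hg0 h0, z.ord_mul hπ0 ht₁0, hzg, zero_add] at h1
    have h2 : z.ord (algebraMap K F c) < z.ord (t - algebraMap K F c) := by
      rw [FF.ord_algebraMap, h1]
      omega
    have h3 := FF.ord_add_eq_of_lt z hcF h2
    rw [add_sub_cancel, FF.ord_algebraMap] at h3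
    exact h3

/-- Step 2: every nonzero element of `K[X,Y]` is `(Y-b)^m` times a unit at both places. -/
theorem exists_pow_mul_unit (X Y : F) (a b : K) (g h : F) (hg0 : g ≠ 0)
    (hg : g ∈ Algebra.adjoin K {X, Y}) (hh : h ∈ Algebra.adjoin K {X, Y})
    (hrel : g * (X - algebraMap K F a) = (Y - algebraMap K F b) * h)
    (v w : Place K F)
    (hvX : 0 < v.ord (X - algebraMap K F a)) (hvY : 0 < v.ord (Y - algebraMap K F b))
    (hvg : v.ord g = 0)
    (hwX : 0 < w.ord (X - algebraMap K F a)) (hwY : 0 < w.ord (Y - algebraMap K F b))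
    (hwg : w.ord g = 0)
    (t : F) (ht : t ∈ Algebra.adjoin K {X, Y}) (ht0 : t ≠ 0) :
    ∃ (m : ℕ) (u u' : F), u ≠ 0 ∧ u' ≠ 0 ∧ u' * t = (Y - algebraMap K F b) ^ m * u ∧
      v.ord u = 0 ∧ v.ord u' = 0 ∧ w.ord u = 0 ∧ w.ord u' = 0 := by
  have key : ∀ n : ℕ, ∀ t : F, t ∈ Algebra.adjoin K {X, Y} → t ≠ 0 → v.ord t < n →
      ∃ (m : ℕ) (u u' : F), u ≠ 0 ∧ u' ≠ 0 ∧ u' * t = (Y - algebraMap K F b) ^ m * u ∧
        v.ord u = 0 ∧ v.ord u' = 0 ∧ w.ord u = 0 ∧ w.ord u' = 0 := by
    intro n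
    induction n with
    | zero =>
      intro t ht _ hlt
      have := ord_nonneg_of_mem_adjoin X Y a b v hvX hvY t ht
      simp only [Nat.cast_zero] at hlt
      omega
    | succ n ih =>
      intro t ht ht0 hlt
      obtain ⟨c, t₁, ht₁, e⟩ := exists_const_of_mem_adjoin X Y a b g h hg hh hrel t ht
      have hv₁ := ord_nonneg_of_mem_adjoin X Y a b v hvX hvY t₁ ht₁
      have hw₁ := ord_nonneg_of_mem_adjoin X Y a b w hwX hwY t₁ ht₁
      rcases eq_or_ne c 0 with rfl | hc
      · rw [map_zero, sub_zero] at e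
        have hprod : (Y - algebraMap K F b) * t₁ ≠ 0 := e ▸ mul_ne_zero hg0 ht0
        have hπ0 : Y - algebraMap K F b ≠ 0 := left_ne_zero_of_mul hprod
        have ht₁0 : t₁ ≠ 0 := right_ne_zero_of_mul hprod
        have h1 := congrArg v.ord e
        rw [v.ord_mul hg0 ht0, v.ord_mul hπ0 ht₁0, hvg, zero_add] at h1
        have hlt' : v.ord t₁ < n := by
          push_cast at hlt
          omega
        obtain ⟨m, u, u', hu, hu', e', h2, h3, h4, h5⟩ := ih t₁ ht₁ ht₁0 hlt'
        refine ⟨m + 1, u, u' * g, hu, mul_ne_zero hu' hg0, ?_, h2, ?_, h4, ?_⟩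
        · rw [pow_succ]
          linear_combination u' * e + (Y - algebraMap K F b) * e'
        · rw [v.ord_mul hu' hg0, h3, hvg, add_zero]
        · rw [w.ord_mul hu' hg0, h5, hwg, add_zero]
      · refine ⟨0, t, 1, ht0, one_ne_zero, by rw [one_mul, pow_zero, one_mul], ?_, v.ord_one, ?_,
          w.ord_one⟩
        · exact ord_eq_zero_of_const v hg0 hvg hvY hv₁ hc e
        · exact ord_eq_zero_of_const w hg0 hwg hwY hw₁ hc e
  have hnn := ord_nonneg_of_mem_adjoin X Y a b v hvX hvY t ht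
  refine key ((v.ord t).toNat + 1) t ht ht0 ?_
  push_cast
  rw [Int.toNat_of_nonneg hnn]
  omega

/-- **Uniqueness of the place centred at a "nonsingular" point.** -/
theorem place_unique (X Y : F) (htop : IntermediateField.adjoin K {X, Y} = ⊤) (a b : K)
    (g h : F) (hg0 : g ≠ 0)
    (hg : g ∈ Algebra.adjoin K {X, Y}) (hh : h ∈ Algebra.adjoin K {X, Y})
    (hrel : g * (X - algebraMap K F a) = (Y - algebraMap K F b) * h)
    (v w : Place K F)
    (hvX : 0 < v.ord (X - algebraMap K F a)) (hvY : 0 < v.ord (Y - algebraMap K F b))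
    (hvg : v.ord g = 0)
    (hwX : 0 < w.ord (X - algebraMap K F a)) (hwY : 0 < w.ord (Y - algebraMap K F b))
    (hwg : w.ord g = 0) : v = w := by
  apply FF.place_ext_of_ord_nonneg
  intro f
  rcases eq_or_ne f 0 with rfl | hf0
  · simp
  have hf : f ∈ IntermediateField.adjoin K {X, Y} := by
    rw [htop]
    exact IntermediateField.mem_top
  obtain ⟨r, hr, s, hs, rfl⟩ := IntermediateField.mem_adjoin_iff_div.1 hf
  have hr0 : r ≠ 0 := by
    rintro rfl
    exact hf0 (zero_div _)
  have hs0 : s ≠ 0 := by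
    rintro rfl
    exact hf0 (div_zero _)
  have hπ0 : Y - algebraMap K F b ≠ 0 := FF.ne_zero_of_ord_ne_zero v hvY.ne'
  obtain ⟨m, u, u', hu, hu', e, h1, h2, h3, h4⟩ :=
    exists_pow_mul_unit X Y a b g h hg0 hg hh hrel v w hvX hvY hvg hwX hwY hwg r hr hr0
  obtain ⟨m', y, y', hy, hy', e', h1', h2', h3', h4'⟩ :=
    exists_pow_mul_unit X Y a b g h hg0 hg hh hrel v w hvX hvY hvg hwX hwY hwg s hs hs0
  have hord : ∀ z : Place K F, z.ord u = 0 → z.ord u' = 0 → z.ord y = 0 → z.ord y' = 0 →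
      z.ord (r / s) = ((m : ℤ) - (m' : ℤ)) * z.ord (Y - algebraMap K F b) := by
    intro z a1 a2 a3 a4
    have b1 := congrArg z.ord e
    rw [z.ord_mul hu' hr0, z.ord_mul (pow_ne_zero _ hπ0) hu, FF.ord_pow, a1, a2, zero_add,
      add_zero] at b1
    have b2 := congrArg z.ord e'
    rw [z.ord_mul hy' hs0, z.ord_mul (pow_ne_zero _ hπ0) hy, FF.ord_pow, a3, a4, zero_add,
      add_zero] at b2
    rw [div_eq_mul_inv, z.ord_mul hr0 (inv_ne_zero hs0), z.ord_inv, b1, b2]
    ring
  rw [hord v h1 h2 h1' h2', hord w h3 h4 h3' h4', mul_nonneg_iff_of_pos_right hvY,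
    mul_nonneg_iff_of_pos_right hwY]

end Fermat.Agent.S15.Dict
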