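/-
S15 / Dict / Newton (architect helper271): the Newton polygon of the modular equation
`Φ_N(X,Y) = X^(N+1) + Y^(N+1) - X^N Y^N + ∑ (lower) c a b X^a Y^b`, `c a b ∈ ℤ`, for an arbitrary
valuation.  Pure valuation theory (ultrametric inequality), Mathlib only.
-/
import Mathlib

set_option autoImplicit false

namespace Fermat.Agent.S15.Dict

open Polynomial

/-- `X^(N+1) + Y^(N+1) + ∑_{a,b ≤ N} c a b X^a Y^b`, evaluated in a commutative ring. -/
def phiEval {S : Type*} [CommRing S] (N : ℕ) (c : ℕ → ℕ → ℤ) (x y : S) : S :=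
  x ^ (N + 1) + y ^ (N + 1) +
    ∑ a ∈ Finset.range (N + 1), ∑ b ∈ Finset.range (N + 1), (c a b : S) * x ^ a * y ^ b

/-- `Φ(T, y)` as a polynomial in `T`. -/
noncomputable def phiPoly {S : Type*} [CommRing S] (N : ℕ) (c : ℕ → ℕ → ℤ) (y : S) : S[X] :=
  X ^ (N + 1) + C (y ^ (N + 1)) +
    ∑ a ∈ Finset.range (N + 1), ∑ b ∈ Finset.range (N + 1), C ((c a b : S) * y ^ b) * X ^ a

theorem eval_phiPoly {S : Type*} [CommRing S] (N : ℕ) (c : ℕ → ℕ → ℤ) (x y : S) :
    (phiPoly N c y).eval x = phiEval N c x y := by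
  simp only [phiPoly, phiEval, eval_add, eval_pow, eval_X, eval_C, eval_finsetSum, eval_mul]
  congr 1
  refine Finset.sum_congr rfl fun a _ => Finset.sum_congr rfl fun b _ => ?_
  ring

theorem map_phiEval {S T : Type*} [CommRing S] [CommRing T] (f : S →+* T) (N : ℕ)
    (c : ℕ → ℕ → ℤ) (x y : S) : f (phiEval N c x y) = phiEval N c (f x) (f y) := by
  simp only [phiEval, map_add, map_pow, map_sum, map_mul, map_intCast]

theorem phiEval_symm {S : Type*} [CommRing S] (N : ℕ) (c : ℕ → ℕ → ℤ)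
    (hc : ∀ a b, c a b = c b a) (x y : S) : phiEval N c x y = phiEval N c y x := by
  unfold phiEval
  rw [Finset.sum_comm, add_comm (x ^ (N + 1))]
  congr 1
  refine Finset.sum_congr rfl fun a _ => Finset.sum_congr rfl fun b _ => ?_
  rw [hc b a]
  ring

variable {K : Type*} [Field K] {Γ : Type*} [LinearOrderedCommGroupWithZero Γ]

/-- integers are integral for every valuation. -/
theorem val_intCast_le_one (v : Valuation K Γ) (n : ℤ) : v (n : K) ≤ 1 := by
  have hnat : ∀ m : ℕ, v (m : K) ≤ 1 := by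
    intro m
    induction m with
    | zero => simp
    | succ m ih =>
      rw [Nat.cast_succ]
      exact le_trans (v.map_add _ _) (max_le ih (by simp))
  obtain ⟨m, rfl | rfl⟩ := n.eq_nat_or_neg
  · simpa using hnat m
  · simpa using hnat m

private theorem Newton_ne_zero_of_lt (v : Valuation K Γ) {t r : K} (h : v r < v t) :
    t + r ≠ 0 := by
  intro h0
  have h1 : t = -r := eq_neg_of_add_eq_zero_left h0
  rw [h1, Valuation.map_neg] at h
  exact lt_irrefl _ h

private theorem Newton_term_le (v : Valuation K Γ) (n : ℤ) (x y : K) (a b : ℕ) :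
    v ((n : K) * x ^ a * y ^ b) ≤ v x ^ a * v y ^ b := by
  rw [map_mul, map_mul, map_pow, map_pow, mul_assoc]
  calc v (n : K) * (v x ^ a * v y ^ b) ≤ 1 * (v x ^ a * v y ^ b) :=
        mul_le_mul_left (val_intCast_le_one v n) _
    _ = _ := one_mul _

/-- case (i): `y^(N+1)` dominates. -/
private theorem Newton_case_one (v : Valuation K Γ) (N : ℕ) (hN : 2 ≤ N) (c : ℕ → ℕ → ℤ)
    (x y : K) (hx : 1 < v x) (hy : v x ^ N < v y) : phiEval N c x y ≠ 0 := by
  have hxy : v x < v y := lt_of_le_of_lt (le_self_pow₀ hx.le (by omega)) hy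
  have hy1 : 1 < v y := hx.trans hxy
  have hy0 : 0 < v y := zero_lt_one.trans hy1
  have e : phiEval N c x y = y ^ (N + 1) + (x ^ (N + 1) +
      ∑ a ∈ Finset.range (N + 1), ∑ b ∈ Finset.range (N + 1), (c a b : K) * x ^ a * y ^ b) := by
    unfold phiEval; ring
  rw [e]
  apply Newton_ne_zero_of_lt v
  have hpos : v (y ^ (N + 1)) ≠ 0 := by rw [map_pow]; exact (pow_pos hy0 _).ne'
  refine Valuation.map_add_lt v ?_ ?_
  · rw [map_pow, map_pow]
    exact pow_lt_pow_left₀ hxy zero_le (by omega)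
  · refine Valuation.map_sum_lt v hpos fun a ha => Valuation.map_sum_lt v hpos fun b hb => ?_
    rw [Finset.mem_range] at ha hb
    refine lt_of_le_of_lt (Newton_term_le v _ x y a b) ?_
    rw [map_pow]
    calc v x ^ a * v y ^ b ≤ v x ^ N * v y ^ N :=
          mul_le_mul' (pow_le_pow_right₀ hx.le (by omega)) (pow_le_pow_right₀ hy1.le (by omega))
      _ < v y * v y ^ N := mul_lt_mul_of_pos_right hy (pow_pos hy0 _)
      _ = v y ^ (N + 1) := by rw [pow_succ, mul_comm]

/-- case (iii): `x^(N+1)` dominates. -/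
private theorem Newton_case_three (v : Valuation K Γ) (N : ℕ) (hN : 2 ≤ N) (c : ℕ → ℕ → ℤ)
    (x y : K) (hx : 1 < v x) (hy : v y ^ N < v x) : phiEval N c x y ≠ 0 := by
  have hx0 : 0 < v x := zero_lt_one.trans hx
  have hyb : ∀ b, b ≤ N → v y ^ b < v x := by
    intro b hb
    rcases le_or_gt (v y) 1 with h1 | h1
    · exact lt_of_le_of_lt (pow_le_one₀ zero_le h1) hx
    · exact lt_of_le_of_lt (pow_le_pow_right₀ h1.le hb) hy
  have hyx : v y < v x := by simpa using hyb 1 (by omega)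
  have e : phiEval N c x y = x ^ (N + 1) + (y ^ (N + 1) +
      ∑ a ∈ Finset.range (N + 1), ∑ b ∈ Finset.range (N + 1), (c a b : K) * x ^ a * y ^ b) := by
    unfold phiEval; ring
  rw [e]
  apply Newton_ne_zero_of_lt v
  have hpos : v (x ^ (N + 1)) ≠ 0 := by rw [map_pow]; exact (pow_pos hx0 _).ne'
  refine Valuation.map_add_lt v ?_ ?_
  · rw [map_pow, map_pow]
    exact pow_lt_pow_left₀ hyx zero_le (by omega)
  · refine Valuation.map_sum_lt v hpos fun a ha => Valuation.map_sum_lt v hpos fun b hb => ?_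
    rw [Finset.mem_range] at ha hb
    refine lt_of_le_of_lt (Newton_term_le v _ x y a b) ?_
    rw [map_pow]
    calc v x ^ a * v y ^ b ≤ v x ^ N * v y ^ b :=
          mul_le_mul' (pow_le_pow_right₀ hx.le (by omega)) le_rfl
      _ < v x ^ N * v x := mul_lt_mul_of_pos_left (hyb b (by omega)) (pow_pos hx0 _)
      _ = v x ^ (N + 1) := by rw [pow_succ]

/-- case (ii): `x^N y^N` dominates. -/
private theorem Newton_case_two (v : Valuation K Γ) (N : ℕ) (c : ℕ → ℕ → ℤ)
    (hc : c N N = -1) (x y : K) (hx : 1 < v x) (h1 : v x < v y ^ N) (h2 : v y < v x ^ N) :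
    phiEval N c x y ≠ 0 := by
  have hx0 : 0 < v x := zero_lt_one.trans hx
  have hy1 : 1 < v y := by
    by_contra hcon
    rw [not_lt] at hcon
    exact absurd (hx.trans h1) (not_lt.mpr (pow_le_one₀ zero_le hcon))
  have hy0 : 0 < v y := zero_lt_one.trans hy1
  have e : phiEval N c x y = (c N N : K) * x ^ N * y ^ N + (x ^ (N + 1) + y ^ (N + 1) +
      ((∑ a ∈ Finset.range N, ∑ b ∈ Finset.range (N + 1), (c a b : K) * x ^ a * y ^ b) +
        ∑ b ∈ Finset.range N, (c N b : K) * x ^ N * y ^ b)) := by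
    unfold phiEval
    rw [Finset.sum_range_succ, Finset.sum_range_succ (fun b => (c N b : K) * x ^ N * y ^ b)]
    ring
  rw [e]
  apply Newton_ne_zero_of_lt v
  have hv : v ((c N N : K) * x ^ N * y ^ N) = v x ^ N * v y ^ N := by
    rw [hc]
    simp
  rw [hv]
  have hpos : v x ^ N * v y ^ N ≠ 0 := (mul_pos (pow_pos hx0 _) (pow_pos hy0 _)).ne'
  refine Valuation.map_add_lt v (Valuation.map_add_lt v ?_ ?_) (Valuation.map_add_lt v ?_ ?_)
  · rw [map_pow, pow_succ]
    exact mul_lt_mul_of_pos_left h1 (pow_pos hx0 _)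
  · rw [map_pow, pow_succ, mul_comm]
    exact mul_lt_mul_of_pos_right h2 (pow_pos hy0 _)
  · refine Valuation.map_sum_lt v hpos fun a ha => Valuation.map_sum_lt v hpos fun b hb => ?_
    rw [Finset.mem_range] at ha hb
    refine lt_of_le_of_lt (Newton_term_le v _ x y a b) ?_
    calc v x ^ a * v y ^ b ≤ v x ^ a * v y ^ N :=
          mul_le_mul' le_rfl (pow_le_pow_right₀ hy1.le (by omega))
      _ < v x ^ N * v y ^ N :=
          mul_lt_mul_of_pos_right (pow_lt_pow_right₀ hx ha) (pow_pos hy0 _)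
  · refine Valuation.map_sum_lt v hpos fun b hb => ?_
    rw [Finset.mem_range] at hb
    refine lt_of_le_of_lt (Newton_term_le v _ x y N b) ?_
    exact mul_lt_mul_of_pos_left (pow_lt_pow_right₀ hy1 hb) (pow_pos hx0 _)

/-- **Newton dichotomy.**  If `Φ(x,y) = 0` and `|x| > 1` then `|y| = |x|^N` or `|y|^N = |x|`. -/
theorem newton_dichotomy (v : Valuation K Γ) (N : ℕ) (hN : 2 ≤ N) (c : ℕ → ℕ → ℤ)
    (hc : c N N = -1) (x y : K) (h : phiEval N c x y = 0) (hx : 1 < v x) :
    v y = v x ^ N ∨ v y ^ N = v x := by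
  rcases lt_trichotomy (v y) (v x ^ N) with h1 | h1 | h1
  · rcases lt_trichotomy (v y ^ N) (v x) with h2 | h2 | h2
    · exact absurd h (Newton_case_three v N hN c x y hx h2)
    · exact Or.inr h2
    · exact absurd h (Newton_case_two v N c hc x y hx h2 h1)
  · exact Or.inl h1
  · exact absurd h (Newton_case_one v N hN c x y hx h1)

end Fermat.Agent.S15.Dict
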