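/-
S15 / Dict / NewtonSimple (architect helper271): the big root of `Φ_N(T,y)` is simple.
-/
import Fermat.Agent.S15.Dict.Newton

set_option autoImplicit false

namespace Fermat.Agent.S15.Dict

open Polynomial

variable {K : Type*} [Field K] {Γ : Type*} [LinearOrderedCommGroupWithZero Γ]

/-- integers are integral (local copy, proved through the valuation subring). -/
theorem newtonSimple_val_int (v : Valuation K Γ) (n : ℤ) : v (n : K) ≤ 1 :=
  (Valuation.mem_integer_iff v _).1 (intCast_mem v.integer n)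

/-- naturals are integral. -/
theorem newtonSimple_val_nat (v : Valuation K Γ) (n : ℕ) : v (n : K) ≤ 1 :=
  (Valuation.mem_integer_iff v _).1 (natCast_mem v.integer n)

/-- the coefficient of `T^a` in `Φ(T,y)` (lower part). -/
noncomputable def newtonSimpleCoeff (N : ℕ) (c : ℕ → ℕ → ℤ) (y : K) (a : ℕ) : K :=
  ∑ b ∈ Finset.range (N + 1), (c a b : K) * y ^ b

theorem newtonSimple_val_coeff (v : Valuation K Γ) (N : ℕ) (c : ℕ → ℕ → ℤ) (y : K)
    (hy : 1 < v y) (a : ℕ) : v (newtonSimpleCoeff N c y a) ≤ v y ^ N := by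
  unfold newtonSimpleCoeff
  refine Valuation.map_sum_le v fun b hb => ?_
  rw [map_mul, map_pow]
  have hb' : b ≤ N := Nat.lt_succ_iff.1 (Finset.mem_range.1 hb)
  calc v (c a b : K) * v y ^ b ≤ 1 * v y ^ N :=
        mul_le_mul' (newtonSimple_val_int v _) (pow_le_pow_right₀ hy.le hb')
    _ = v y ^ N := one_mul _

theorem newtonSimple_phiEval (N : ℕ) (c : ℕ → ℕ → ℤ) (x y : K) :
    phiEval N c x y = x ^ (N + 1) + y ^ (N + 1) +
      ∑ a ∈ Finset.range (N + 1), newtonSimpleCoeff N c y a * x ^ a := by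
  unfold phiEval newtonSimpleCoeff
  congr 1
  refine Finset.sum_congr rfl fun a _ => ?_
  rw [Finset.sum_mul]
  refine Finset.sum_congr rfl fun b _ => ?_
  ring

theorem newtonSimple_phiPoly (N : ℕ) (c : ℕ → ℕ → ℤ) (y : K) :
    phiPoly N c y = X ^ (N + 1) + C (y ^ (N + 1)) +
      ∑ a ∈ Finset.range (N + 1), C (newtonSimpleCoeff N c y a) * X ^ a := by
  unfold phiPoly newtonSimpleCoeff
  congr 1
  refine Finset.sum_congr rfl fun a _ => ?_
  rw [map_sum, Finset.sum_mul]

theorem newtonSimple_deriv (N : ℕ) (c : ℕ → ℕ → ℤ) (x y : K) :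
    (derivative (phiPoly N c y)).eval x = ((N : K) + 1) * x ^ N +
      ∑ a ∈ Finset.range (N + 1), (a : K) * newtonSimpleCoeff N c y a * x ^ (a - 1) := by
  rw [newtonSimple_phiPoly]
  simp only [derivative_add, derivative_X_pow, derivative_C, derivative_sum, derivative_mul,
    eval_add, eval_mul, eval_pow, eval_X, eval_C, eval_finsetSum, eval_natCast, zero_mul,
    add_zero, zero_add, eval_zero, Nat.add_sub_cancel, Nat.cast_add, Nat.cast_one, map_add,
    map_natCast, map_one, eval_one]
  congr 1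
  refine Finset.sum_congr rfl fun a _ => ?_
  ring

/-- **Simple root.**  If `Φ(x,y) = 0`, `|y| > 1` and `|x| = |y|^N` then `x` is a simple root of
`Φ(T,y)`. -/
theorem newton_simple (v : Valuation K Γ) (N : ℕ) (hN : 2 ≤ N) (c : ℕ → ℕ → ℤ)
    (hc : c N N = -1) (x y : K) (h : phiEval N c x y = 0) (hy : 1 < v y) (hxy : v x = v y ^ N) :
    (derivative (phiPoly N c y)).eval x ≠ 0 := by
  set A := newtonSimpleCoeff N c y with hA
  have hN0 : N ≠ 0 := by omega
  have hx1 : 1 < v x := by rw [hxy]; exact one_lt_pow₀ hy hN0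
  have hx0 : v x ≠ 0 := (lt_trans zero_lt_one hx1).ne'
  have hAle : ∀ a, v (A a) ≤ v x := fun a => by
    rw [hxy]; exact newtonSimple_val_coeff v N c y hy a
  -- step 1: `v (x + A N) ≤ 1`
  have h1 : x ^ N * (x + A N) = -(y ^ (N + 1) + ∑ a ∈ Finset.range N, A a * x ^ a) := by
    have := h
    rw [newtonSimple_phiEval, Finset.sum_range_succ] at this
    linear_combination this
  have h2 : v (y ^ (N + 1) + ∑ a ∈ Finset.range N, A a * x ^ a) ≤ v x ^ N := by
    refine Valuation.map_add_le v ?_ (Valuation.map_sum_le v fun a ha => ?_)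
    · rw [map_pow, hxy, ← pow_mul]
      refine pow_le_pow_right₀ hy.le ?_
      nlinarith
    · rw [map_mul, map_pow]
      have ha' : a + 1 ≤ N := Finset.mem_range.1 ha
      calc v (A a) * v x ^ a ≤ v x * v x ^ a := mul_le_mul' (hAle a) le_rfl
        _ = v x ^ (a + 1) := by rw [pow_succ, mul_comm]
        _ ≤ v x ^ N := pow_le_pow_right₀ hx1.le ha'
  have h3 : v (x + A N) ≤ 1 := by
    have h4 : v x ^ N * v (x + A N) ≤ v x ^ N * 1 := by
      rw [mul_one, ← map_pow, ← map_mul, h1, Valuation.map_neg, map_pow]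
      exact h2
    exact le_of_mul_le_mul_left h4 (pow_pos (zero_lt_iff.2 hx0) N)
  -- step 2: rewrite the derivative
  intro hd
  rw [newtonSimple_deriv, Finset.sum_range_succ] at hd
  have hxN : x ^ N = x ^ (N - 1) * x := by
    rw [← pow_succ]; congr 1; omega
  have h5 : x ^ N = -((N : K) * x ^ (N - 1) * (x + A N) +
      ∑ a ∈ Finset.range N, (a : K) * A a * x ^ (a - 1)) := by
    have h6 : (N : K) * x ^ (N - 1) * (x + A N) = (N : K) * x ^ N + (N : K) * A N * x ^ (N - 1) := by
      rw [hxN]; ring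
    rw [h6]
    linear_combination hd
  have h7 : v ((N : K) * x ^ (N - 1) * (x + A N) +
      ∑ a ∈ Finset.range N, (a : K) * A a * x ^ (a - 1)) ≤ v x ^ (N - 1) := by
    refine Valuation.map_add_le v ?_ (Valuation.map_sum_le v fun a ha => ?_)
    · rw [map_mul, map_mul, map_pow]
      calc v (N : K) * v x ^ (N - 1) * v (x + A N) ≤ 1 * v x ^ (N - 1) * 1 :=
            mul_le_mul' (mul_le_mul' (newtonSimple_val_nat v N) le_rfl) h3
        _ = v x ^ (N - 1) := by rw [one_mul, mul_one]
    · rcases Nat.eq_zero_or_pos a with rfl | hapos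
      · simp
      · rw [map_mul, map_mul, map_pow]
        have ha' : a ≤ N - 1 := by have := Finset.mem_range.1 ha; omega
        calc v (a : K) * v (A a) * v x ^ (a - 1) ≤ 1 * v x * v x ^ (a - 1) :=
              mul_le_mul' (mul_le_mul' (newtonSimple_val_nat v a) (hAle a)) le_rfl
          _ = v x ^ a := by
              rw [one_mul, mul_comm, ← pow_succ]; congr 1; omega
          _ ≤ v x ^ (N - 1) := pow_le_pow_right₀ hx1.le ha'
  have h8 : v x ^ N ≤ v x ^ (N - 1) := by
    rw [← map_pow v x N, h5, Valuation.map_neg]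
    exact h7
  have h9 : v x ^ (N - 1) < v x ^ N := pow_lt_pow_right₀ hx1 (by omega)
  exact absurd h8 (not_le.2 h9)

end Fermat.Agent.S15.Dict
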