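/-
S15 / Dict / Uniq2 (architect helper271): uniqueness of the place centred at a point `(a,b)` of the
curve `Φ(X,Y) = 0` at which `a` is a simple root of `Φ(T,b)`.
-/
import Fermat.Agent.S15.Dict.Uniq
import Fermat.Agent.S15.Dict.Newton
import Fermat.Agent.S37.Val

set_option autoImplicit false

namespace Fermat.Agent.S15.Dict

open AlgebraicCurve Polynomial Fermat.Agent.S24 Fermat.Agent.S37

variable {K F : Type*} [Field K] [Field F] [Algebra K F]

/-- `Φ(X,Y) - Φ(X,b)` is divisible by `Y - b` in `K[X,Y]`. -/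
theorem exists_phiEval_sub (N : ℕ) (c : ℕ → ℕ → ℤ) (X Y : F) (b : K) :
    ∃ h ∈ Algebra.adjoin K {X, Y},
      phiEval N c X Y - phiEval N c X (algebraMap K F b) = (Y - algebraMap K F b) * h := by
  set b' : F := algebraMap K F b with hb'
  set B := Algebra.adjoin K ({X, Y} : Set F) with hB
  have hXB : X ∈ B := Algebra.subset_adjoin (Set.mem_insert _ _)
  have hYB : Y ∈ B := Algebra.subset_adjoin (Set.mem_insert_of_mem _ rfl)
  have hbB : b' ∈ B := Subalgebra.algebraMap_mem _ b
  set gs : ℕ → F := fun k => ∑ i ∈ Finset.range k, Y ^ i * b' ^ (k - 1 - i) with hgs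
  have hgsB : ∀ k, gs k ∈ B := fun k =>
    Subalgebra.sum_mem _ fun i _ => mul_mem (pow_mem hYB _) (pow_mem hbB _)
  have hk : ∀ k, Y ^ k - b' ^ k = (Y - b') * gs k := fun k => by
    rw [mul_comm]
    exact (geom_sum₂_mul Y b' k).symm
  refine ⟨gs (N + 1) + ∑ a ∈ Finset.range (N + 1), ∑ k ∈ Finset.range (N + 1),
    (c a k : F) * X ^ a * gs k, ?_, ?_⟩
  · refine add_mem (hgsB _) (Subalgebra.sum_mem _ fun a _ => Subalgebra.sum_mem _ fun k _ => ?_)
    exact mul_mem (mul_mem (intCast_mem _ _) (pow_mem hXB _)) (hgsB _)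
  · have e1 : phiEval N c X Y - phiEval N c X b' = (Y ^ (N + 1) - b' ^ (N + 1)) +
        ∑ a ∈ Finset.range (N + 1), ∑ k ∈ Finset.range (N + 1),
          (c a k : F) * X ^ a * (Y ^ k - b' ^ k) := by
      unfold phiEval
      simp only [mul_sub, Finset.sum_sub_distrib]
      ring
    rw [e1, hk, mul_add]
    congr 1
    rw [Finset.mul_sum]
    refine Finset.sum_congr rfl fun a _ => ?_
    rw [Finset.mul_sum]
    refine Finset.sum_congr rfl fun k _ => ?_
    rw [hk]
    ring

/-- `Φ(X,b) = (phiPoly N c b)(X)`. -/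
theorem aeval_phiPoly (N : ℕ) (c : ℕ → ℕ → ℤ) (X : F) (b : K) :
    aeval X (phiPoly N c b) = phiEval N c X (algebraMap K F b) := by
  simp only [phiPoly, phiEval, map_add, map_pow, aeval_X, aeval_C, map_sum, map_mul, map_intCast]
  congr 1
  refine Finset.sum_congr rfl fun a _ => Finset.sum_congr rfl fun k _ => ?_
  ring

/-- polynomials in a regular element are regular -/
private theorem ord_aeval_nonneg (v : Place K F) (X : F) (hX : 0 ≤ v.ord X) (q : K[X]) :
    0 ≤ v.ord (aeval X q) := by
  rw [aeval_eq_sum_range]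
  refine ord_sum_nonneg _ _ fun i _ => ?_
  rw [Algebra.smul_def]
  exact ord_mul_nonneg (ord_algebraMap_nonneg _) (ord_pow_nonneg hX _)

/-- the value of a polynomial in `X` at a place where `X = a`. -/
theorem van_aeval_sub (v : Place K F) (X : F) (a : K) (hX : Van v (X - algebraMap K F a))
    (G : K[X]) : Van v (aeval X G - algebraMap K F (G.eval a)) := by
  obtain ⟨q, hq⟩ := X_sub_C_dvd_sub_C_eval (a := a) (p := G)
  have h1 := congrArg (aeval X) hq
  rw [map_sub, map_mul, map_sub, aeval_X, aeval_C, aeval_C] at h1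
  rw [h1]
  exact hX.mul_right (ord_aeval_nonneg v X (ord_nonneg_of_van_sub hX) q)

/-- elements of `K[X,Y]` are regular at a place centred at `(a,b)` (`Van` version). -/
private theorem ord_nonneg_of_mem_adjoin_van (X Y : F) (a b : K) (v : Place K F)
    (hX : Van v (X - algebraMap K F a)) (hY : Van v (Y - algebraMap K F b))
    (t : F) (ht : t ∈ Algebra.adjoin K {X, Y}) : 0 ≤ v.ord t := by
  induction ht using Algebra.adjoin_induction with
  | mem x hx =>
    rcases hx with rfl | hx
    · exact ord_nonneg_of_van_sub hX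
    · rw [Set.mem_singleton_iff] at hx
      subst hx
      exact ord_nonneg_of_van_sub hY
  | algebraMap r => exact ord_algebraMap_nonneg r
  | add x y _ _ hx hy => exact ord_add_nonneg hx hy
  | mul x y _ _ hx hy => exact ord_mul_nonneg hx hy

/-- the point lies on the curve. -/
theorem phiEval_eq_zero_of_van (N : ℕ) (c : ℕ → ℕ → ℤ) (X Y : F) (hrel : phiEval N c X Y = 0)
    (a b : K) (v : Place K F) (hX : Van v (X - algebraMap K F a))
    (hY : Van v (Y - algebraMap K F b)) : phiEval N c a b = 0 := by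
  obtain ⟨h, hh, e⟩ := exists_phiEval_sub N c X Y b
  have h1 : Van v ((Y - algebraMap K F b) * h) :=
    hY.mul_right (ord_nonneg_of_mem_adjoin_van X Y a b v hX hY h hh)
  have h2 := van_aeval_sub v X a hX (phiPoly N c b)
  rw [aeval_phiPoly, eval_phiPoly] at h2
  have h3 := (h1.add h2).neg
  rw [← e, hrel] at h3
  have h4 : -(0 - phiEval N c X (algebraMap K F b) +
      (phiEval N c X (algebraMap K F b) - algebraMap K F (phiEval N c a b))) =
      algebraMap K F (phiEval N c a b) := by ring
  rw [h4] at h3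
  exact van_algebraMap_iff.1 h3

/-- an element congruent to a nonzero constant is a unit at the place -/
private theorem ord_eq_zero_of_van_sub (v : Place K F) {g : F} {c : K} (hc : c ≠ 0)
    (h : Van v (g - algebraMap K F c)) : g ≠ 0 ∧ v.ord g = 0 := by
  have hcF : algebraMap K F c ≠ 0 := (_root_.map_ne_zero _).2 hc
  constructor
  · rintro rfl
    rw [zero_sub] at h
    have := h.neg
    rw [neg_neg] at this
    exact hc (van_algebraMap_iff.1 this)
  · rcases h with h | h
    · rw [sub_eq_zero.1 h]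
      exact FF.ord_algebraMap v c
    · have h2 : v.ord (algebraMap K F c) < v.ord (g - algebraMap K F c) := by
        rw [FF.ord_algebraMap]
        exact h
      have h3 := FF.ord_add_eq_of_lt v hcF h2
      rw [add_sub_cancel, FF.ord_algebraMap] at h3
      exact h3

/-- **Uniqueness of the place at a point where `a` is a simple root of `Φ(T,b)`.** -/
theorem place_unique_of_simple (X Y : F) (htop : IntermediateField.adjoin K {X, Y} = ⊤)
    (N : ℕ) (c : ℕ → ℕ → ℤ) (hrel : phiEval N c X Y = 0) (a b : K)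
    (hs : (derivative (phiPoly N c b)).eval a ≠ 0) (v w : Place K F)
    (hvX : 0 < v.ord (X - algebraMap K F a)) (hvY : 0 < v.ord (Y - algebraMap K F b))
    (hwX : 0 < w.ord (X - algebraMap K F a)) (hwY : 0 < w.ord (Y - algebraMap K F b)) :
    v = w := by
  set r : K[X] := phiPoly N c b with hr
  have hroot : r.IsRoot a := by
    show r.eval a = 0
    rw [hr, eval_phiPoly]
    exact phiEval_eq_zero_of_van N c X Y hrel a b v (Or.inr hvX) (Or.inr hvY)
  set G : K[X] := r /ₘ (Polynomial.X - C a) with hG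
  have hrG : (Polynomial.X - C a) * G = r := mul_divByMonic_eq_iff_isRoot.2 hroot
  have hGa : G.eval a ≠ 0 := by
    intro h0
    apply hs
    rw [← hrG, derivative_mul, eval_add, eval_mul, eval_mul, h0, eval_sub, eval_X, eval_C,
      sub_self, mul_zero, zero_mul, add_zero]
  obtain ⟨h, hh, e⟩ := exists_phiEval_sub N c X Y b
  have hg : aeval X G ∈ Algebra.adjoin K ({X, Y} : Set F) :=
    Algebra.adjoin_mono (Set.singleton_subset_iff.2 (Set.mem_insert _ _))
      (aeval_mem_adjoin_singleton K X)
  have hrel' : aeval X G * (X - algebraMap K F a) = (Y - algebraMap K F b) * (-h) := by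
    have h1 := congrArg (aeval X) hrG
    rw [map_mul, map_sub, aeval_X, aeval_C, hr, aeval_phiPoly] at h1
    rw [hrel] at e
    rw [mul_comm, h1, mul_neg, ← e]
    ring
  obtain ⟨hg0, hvg⟩ := ord_eq_zero_of_van_sub v hGa (van_aeval_sub v X a (Or.inr hvX) G)
  obtain ⟨-, hwg⟩ := ord_eq_zero_of_van_sub w hGa (van_aeval_sub w X a (Or.inr hwX) G)
  exact place_unique X Y htop a b (aeval X G) (-h) hg0 hg (neg_mem hh) hrel' v w hvX hvY hvg
    hwX hwY hwg

end Fermat.Agent.S15.Dict
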