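/-
S15 / Dict / Fixed (architect helper271): a place of `FN N` (`N` prime) with rational values
`(j, j_N) = (j0, j1)` such that `j0` is a simple root of `Φ_N(T, j1)` is fixed by `G_ℚ`.
-/
import Fermat.Agent.S15.Dict.Uniq2
import Fermat.Agent.S15.A.Near
import Fermat.Agent.Lib.ModEq.Main
import Fermat.Agent.S24.Formal

set_option autoImplicit false

noncomputable section

namespace Fermat.Agent.S15.Dict

open AlgebraicCurve ModularCurve Polynomial Fermat.Agent.S24 Fermat.Agent.S37 Fermat.Agent.S15.A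
open Fermat.Agent.Lib.ModEq

variable (N : ℕ) [NeZero N]

private theorem Fixed_Jser_eq (d : ℕ) [NeZero d] : Jser d = qExpand Kbar d (jqModC Kbar) := by
  unfold Jser coeffEmb
  rw [coeffMap_qExpand, ← jqModC_rat, coeffMap_jqModC]

private theorem Fixed_Jser_one : Jser 1 = jqModC Kbar := by
  rw [Fixed_Jser_eq, qExpand_one_apply]

/-- the modular equation in `FN N`. -/
theorem phiEval_jF_jN (hN : N.Prime) : phiEval N (cPhi N) (jF N) (jN N) = 0 := by
  have h := modEq_map N hN (coeffMap (Int.castRingHom Kbar))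
  rw [coeffMap_qExpand, coeffMap_jqModC, ← Fixed_Jser_eq, ← Fixed_Jser_one] at h
  have hinj : Function.Injective (modularFunctionFieldBar N).val := Subtype.val_injective
  apply hinj
  have e := map_phiEval ((modularFunctionFieldBar N).val : FN N →+* LaurentSeries Kbar) N (cPhi N)
    (jF N) (jN N)
  rw [map_zero]
  exact e.trans h

/-- `FN N = ℚ̄(j, j_N)` for `N` prime. -/
theorem adjoin_jF_jN (hN : N.Prime) : IntermediateField.adjoin Kbar {jF N, jN N} = ⊤ := by
  rw [eq_top_iff, ← Fermat.Agent.S24.Formal.adjoin_JF_eq_top N]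
  apply IntermediateField.adjoin.mono
  rintro _ ⟨d, hne, hd, rfl⟩
  rcases (Nat.dvd_prime hN).1 hd with rfl | rfl
  · exact Or.inl rfl
  · exact Or.inr rfl

theorem gal_smul_JF (d : ℕ) [NeZero d] (hd : d ∣ N) (σ : GQ) :
    arithmeticGalois (modularFunctionFieldFull N) σ • JF N d hd = JF N d hd :=
  Subtype.ext (coeffMap_coeffEmb σ _)

theorem JF_sub_ne_zero (d : ℕ) [NeZero d] (hd : d ∣ N) (c : Kbar) :
    JF N d hd - algebraMap Kbar (FN N) c ≠ 0 := by
  intro h
  have h1 : Jser d = algebraMap Kbar (LaurentSeries Kbar) c :=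
    congrArg Subtype.val (sub_eq_zero.1 h)
  have h2 := order_Jser d
  rw [h1, algebraMap_laurentSeries_eq_single] at h2
  have hd0 : (d : ℤ) ≠ 0 := by exact_mod_cast NeZero.ne d
  rcases eq_or_ne c 0 with rfl | hc
  · rw [HahnSeries.single_eq_zero, HahnSeries.order_zero] at h2
    omega
  · rw [HahnSeries.order_single hc] at h2
    omega

/-- the Galois conjugate of a place takes the conjugate values. -/
theorem van_gal_smul (d : ℕ) [NeZero d] (hd : d ∣ N) (σ : GQ) (x : Place Kbar (FN N)) (c : Kbar)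
    (h : Van x (JF N d hd - algebraMap Kbar (FN N) c)) :
    Van (arithmeticGalois (modularFunctionFieldFull N) σ • x)
      (JF N d hd - algebraMap Kbar (FN N) (σ c)) := by
  have e : arithmeticGalois (modularFunctionFieldFull N) σ •
      (JF N d hd - algebraMap Kbar (FN N) c) = JF N d hd - algebraMap Kbar (FN N) (σ c) := by
    rw [smul_sub, gal_smul_JF, SemilinearAut.smul_algebraMap]
    rfl
  rw [← e]
  rcases h with h | h
  · exact Or.inl (by rw [h, smul_zero])
  · exact Or.inr (by rwa [SemilinearAut.ord_smul])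

/-- **Uniqueness** in `FN N`. -/
theorem place_unique_FN (hN : N.Prime) (j0 j1 : Kbar)
    (hs : (derivative (phiPoly N (cPhi N) j1)).eval j0 ≠ 0) (v w : Place Kbar (FN N))
    (hv0 : Van v (jF N - algebraMap Kbar (FN N) j0))
    (hv1 : Van v (jN N - algebraMap Kbar (FN N) j1))
    (hw0 : Van w (jF N - algebraMap Kbar (FN N) j0))
    (hw1 : Van w (jN N - algebraMap Kbar (FN N) j1)) : v = w := by
  refine place_unique_of_simple (jF N) (jN N) (adjoin_jF_jN N hN) N (cPhi N)
    (phiEval_jF_jN N hN) j0 j1 hs v w ?_ ?_ ?_ ?_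
  · exact hv0.resolve_left (JF_sub_ne_zero N 1 (one_dvd N) j0)
  · exact hv1.resolve_left (JF_sub_ne_zero N N dvd_rfl j1)
  · exact hw0.resolve_left (JF_sub_ne_zero N 1 (one_dvd N) j0)
  · exact hw1.resolve_left (JF_sub_ne_zero N N dvd_rfl j1)

/-- **Fixedness.** -/
theorem fixedPl_of_simple (hN : N.Prime) (j0 j1 : Kbar) (h0 : ∀ σ : GQ, σ j0 = j0)
    (h1 : ∀ σ : GQ, σ j1 = j1)
    (hs : (derivative (phiPoly N (cPhi N) j1)).eval j0 ≠ 0) (x : Place Kbar (FN N))
    (hx0 : Van x (jF N - algebraMap Kbar (FN N) j0))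
    (hx1 : Van x (jN N - algebraMap Kbar (FN N) j1)) : FixedPl N x := by
  intro σ
  refine place_unique_FN N hN j0 j1 hs _ _ ?_ ?_ hx0 hx1
  · have := van_gal_smul N 1 (one_dvd N) σ x j0 hx0
    rwa [h0 σ] at this
  · have := van_gal_smul N N dvd_rfl σ x j1 hx1
    rwa [h1 σ] at this

end Fermat.Agent.S15.Dict

end
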