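/-
S15 / Dict / TauPlace (architect helper271): the place of `FN N = ℚ̄(X₀(N))` attached to a point
`τ` of the upper half plane with `j(τ)` algebraic (order of vanishing at `τ`, via the Taylor
expansion `wexpL N τ` of S24/B), and the evaluation lemma: a function `f ∈ FN N` with a holomorphic
analytic avatar `g` takes the value `g(τ)` at this place.
-/
import Fermat.Agent.S24.B.Points
import Fermat.Agent.S24.CL.PlaceOfVal
import Fermat.Agent.S37.Val

set_option autoImplicit false

noncomputable section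

namespace Fermat.Agent.S15.Dict

open UpperHalfPlane AlgebraicCurve Fermat.Agent.S24 Fermat.Agent.S24.B Fermat.Agent.S37
open scoped WithZero Manifold

variable (N : ℕ) [NeZero N]

/-- the order of vanishing at `τ`, as a valuation on `FN N`. -/
def tauVal (τ : ℍ) : Valuation (FN N) ℤᵐ⁰ :=
  (lval ℂ).comap ((wexpL N τ).comp (Psi N).toRingHom)

theorem tauVal_apply (τ : ℍ) (f : FN N) : tauVal N τ f = lval ℂ (wexpL N τ (Psi N f)) := rfl

theorem tauVal_algebraMap (τ : ℍ) (a : Kbar) (ha : a ≠ 0) :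
    tauVal N τ (algebraMap Kbar (FN N) a) = 1 := by
  rw [tauVal_apply, AlgHom.commutes, wexpL_algebraMap_Kbar]
  have hc : algebraMap Kbar ℂ a ≠ 0 := by
    intro h
    exact ha ((algebraMap Kbar ℂ).injective (by rw [h, map_zero]))
  have hC : (HahnSeries.C (algebraMap Kbar ℂ a) : LaurentSeries ℂ) ≠ 0 := by
    intro h
    exact hc (HahnSeries.C_injective (by rw [h, map_zero]))
  rw [lval_of_ne_zero hC, HahnSeries.order_C]
  simp

/-- if `f` has the holomorphic avatar `g` then the Taylor expansion of `f` at `τ` is the one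
of `g`. -/
theorem wexpL_Psi_eq (τ : ℍ) (f : FN N) (g : ℍ → ℂ) (hg : MDiff g)
    (hfg : HasTExp N g (texpL N (Psi N f))) (s : PowerSeries ℂ) (hs : HasWExp τ g s) :
    wexpL N τ (Psi N f) = HahnSeries.ofPowerSeries ℤ ℂ s := by
  obtain ⟨a', b', hb', hx⟩ := IsFractionRing.div_surjective (A := AL N) (Psi N f)
  have hb0 : b' ≠ 0 := nonZeroDivisors.ne_zero hb'
  have hbL : algebraMap (AL N) (LN N) b' ≠ 0 := by
    intro h
    exact hb0 ((IsFractionRing.injective (AL N) (LN N)) (by rw [h, map_zero]))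
  have hx' : Psi N f * algebraMap (AL N) (LN N) b' = algebraMap (AL N) (LN N) a' := by
    rw [← hx, div_mul_cancel₀ _ hbL]
  have ht : texpL N (Psi N f) * texp N b' = texp N a' := by
    rw [← texpL_algebraMap, ← texpL_algebraMap, ← map_mul, hx']
  have h1 : HasTExp N (g * b'.1) (texp N a') := ht ▸ hfg.mul (hasTExp_texp b')
  have h2 : g * b'.1 = a'.1 := by
    have h3 := h1.sub (hasTExp_texp a')
    rw [sub_self] at h3
    exact sub_eq_zero.mp h3.eq_zero
  have h4 : HasWExp τ a'.1 (s * wexp N τ b') := h2 ▸ hs.mul (hasWExp_wexp τ b')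
  have h5 : wexp N τ a' = s * wexp N τ b' := wexp_eq h4
  have h6 := congrArg (wexpL N τ) hx'
  rw [map_mul, wexpL_algebraMap, wexpL_algebraMap, h5, map_mul] at h6
  have h7 : HahnSeries.ofPowerSeries ℤ ℂ (wexp N τ b') ≠ 0 := by
    intro h
    exact hb0 (ofPowerSeries_comp_wexp_injective (N := N) τ
      (by rw [RingHom.comp_apply, h, map_zero]))
  exact mul_right_cancel₀ h7 h6

/-- the constant term of the Taylor expansion is the value. -/
theorem constantCoeff_of_hasWExp (τ : ℍ) (g : ℍ → ℂ) (s : PowerSeries ℂ) (hs : HasWExp τ g s) :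
    PowerSeries.constantCoeff s = g τ := by
  have h0 := hs.self_of_nhds
  rw [wa_discInv_zero, ofComplex_apply] at h0
  have h1 : HasSum (fun n : ℕ => PowerSeries.coeff n s * (0 : ℂ) ^ n) (PowerSeries.coeff 0 s) := by
    have := hasSum_single (f := fun n : ℕ => PowerSeries.coeff n s * (0 : ℂ) ^ n) 0
      (fun n hn => by simp [hn])
    simpa using this
  rw [← PowerSeries.coeff_zero_eq_constantCoeff_apply]
  exact h1.unique h0

/-- `lval` of a power series without constant term is `< 1`. -/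
theorem lval_ofPowerSeries_lt_one (s : PowerSeries ℂ) (hs : PowerSeries.constantCoeff s = 0) :
    lval ℂ (HahnSeries.ofPowerSeries ℤ ℂ s) < 1 := by
  have h1 : lval ℂ (HahnSeries.ofPowerSeries ℤ ℂ s) ≤ WithZero.exp (-(1 : ℤ)) := by
    unfold lval
    rw [LaurentSeries.valuation_le_iff_coeff_lt_eq_zero]
    intro n hn
    refine (PowerSeries.coeff_coe s n).trans ?_
    split_ifs with h
    · rfl
    · have hn0 : n = 0 := by omega
      subst hn0
      simpa using hs
  refine lt_of_le_of_lt h1 ?_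
  rw [← WithZero.exp_zero, WithZero.exp_lt_exp]
  norm_num

/-- **evaluation**, valuation form. -/
theorem tauVal_sub_lt_one (τ : ℍ) (f : FN N) (g : ℍ → ℂ) (hg : MDiff g)
    (hfg : HasTExp N g (texpL N (Psi N f))) (c : Kbar) (hc : g τ = iota c) :
    tauVal N τ (f - algebraMap Kbar (FN N) c) < 1 := by
  obtain ⟨s, hs⟩ := exists_hasWExp τ hg
  have h1 : wexpL N τ (Psi N (f - algebraMap Kbar (FN N) c)) =
      HahnSeries.ofPowerSeries ℤ ℂ (s - PowerSeries.C (iota c)) := by
    have e1 : Psi N (f - algebraMap Kbar (FN N) c) = Psi N f - algebraMap Kbar (LN N) c := by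
      rw [map_sub, AlgHom.commutes]
    rw [e1, RingHom.map_sub, wexpL_Psi_eq N τ f g hg hfg s hs,
      wexpL_algebraMap_Kbar, RingHom.map_sub, HahnSeries.ofPowerSeries_C]
    rfl
  rw [tauVal_apply, h1]
  apply lval_ofPowerSeries_lt_one
  rw [map_sub, constantCoeff_of_hasWExp τ g s hs, PowerSeries.constantCoeff_C, hc, sub_self]

/-- the avatar of `j(q^d)` is `τ ↦ j(dτ)`. -/
theorem hasTExp_JF (d : ℕ) [NeZero d] (hd : d ∣ N) :
    HasTExp N (jd N d hd).1 (texpL N (Psi N (JF N d hd))) := by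
  rw [Psi_JF, texpL_algebraMap]
  exact hasTExp_texp _

theorem jF_sub_ne_zero (c : Kbar) : jF N - algebraMap Kbar (FN N) c ≠ 0 := by
  intro h
  have h1 : jF N = algebraMap Kbar (FN N) c := sub_eq_zero.mp h
  exact Formal.transcendental_jF N (h1 ▸ isAlgebraic_algebraMap c)

theorem exists_tauVal_lt_one (τ : ℍ) (h : ∃ c : Kbar, jfun τ = iota c) :
    ∃ f : FN N, f ≠ 0 ∧ tauVal N τ f < 1 := by
  obtain ⟨c, hc⟩ := h
  refine ⟨jF N - algebraMap Kbar (FN N) c, jF_sub_ne_zero N c, ?_⟩
  refine tauVal_sub_lt_one N τ (jF N) _ (Stubs.mdiff_of_mem_AL (jd N 1 (one_dvd N)).2)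
    (hasTExp_JF N 1 (one_dvd N)) c ?_
  rw [jd_one_apply, hc]

/-- **The place attached to `τ`.** -/
def tauPlace (τ : ℍ) (h : ∃ c : Kbar, jfun τ = iota c) : Place Kbar (FN N) :=
  CL.placeOfValuation (tauVal N τ) (tauVal_algebraMap N τ) (exists_tauVal_lt_one N τ h)

theorem van_of_tauVal_lt_one (τ : ℍ) (h : ∃ c : Kbar, jfun τ = iota c) (f : FN N)
    (hf : tauVal N τ f < 1) : Van (tauPlace N τ h) f := by
  by_cases hf0 : f = 0
  · exact Or.inl hf0
  right
  obtain ⟨m, hm, hW⟩ := CL.exists_mul_ord_placeOfValuation (tauVal N τ) (tauVal_algebraMap N τ)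
    (exists_tauVal_lt_one N τ h)
  rw [hW f hf0, ← WithZero.exp_zero, WithZero.exp_lt_exp] at hf
  have hm' : (0 : ℤ) < (m : ℤ) := by exact_mod_cast hm
  have h1 : 0 < (m : ℤ) * (tauPlace N τ h).ord f := by
    have : -((m : ℤ) * (CL.placeOfValuation (tauVal N τ) (tauVal_algebraMap N τ)
      (exists_tauVal_lt_one N τ h)).ord f) < 0 := hf
    change -((m : ℤ) * (tauPlace N τ h).ord f) < 0 at this
    omega
  exact (mul_pos_iff_of_pos_left hm').mp h1

/-- **Evaluation lemma.**  If `f ∈ FN N` has the holomorphic avatar `g` (same `t`-expansion), then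
`f` is regular at `tauPlace N τ` with value `g τ`. -/
theorem van_tauPlace (τ : ℍ) (h : ∃ c : Kbar, jfun τ = iota c) (f : FN N) (g : ℍ → ℂ)
    (hg : MDiff g) (hfg : HasTExp N g (texpL N (Psi N f))) (c : Kbar) (hc : g τ = iota c) :
    Van (tauPlace N τ h) (f - algebraMap Kbar (FN N) c) :=
  van_of_tauVal_lt_one N τ h _ (tauVal_sub_lt_one N τ f g hg hfg c hc)

theorem val_tauPlace (τ : ℍ) (h : ∃ c : Kbar, jfun τ = iota c) (f : FN N) (g : ℍ → ℂ)
    (hg : MDiff g) (hfg : HasTExp N g (texpL N (Psi N f))) (c : Kbar) (hc : g τ = iota c) :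
    0 ≤ (tauPlace N τ h).ord f ∧ val (tauPlace N τ h) f = c :=
  ⟨ord_nonneg_of_van_sub (van_tauPlace N τ h f g hg hfg c hc),
    val_eq_of_van (van_tauPlace N τ h f g hg hfg c hc)⟩

/-- the value of `j(q^d)` at `τ` is `j(dτ)`. -/
theorem van_tauPlace_JF (τ : ℍ) (h : ∃ c : Kbar, jfun τ = iota c) (d : ℕ) [NeZero d] (hd : d ∣ N)
    (τ' : ℍ) (hτ' : (τ' : ℂ) = d * τ) (c : Kbar) (hc : jfun τ' = iota c) :
    Van (tauPlace N τ h) (JF N d hd - algebraMap Kbar (FN N) c) := by
  refine van_tauPlace N τ h (JF N d hd) (jd N d hd).1 (Stubs.mdiff_of_mem_AL (jd N d hd).2)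
    (hasTExp_JF N d hd) c ?_
  have h1 : dilMat d • τ = τ' := by
    apply UpperHalfPlane.ext
    have hd0 : (0 : ℤ) < (d : ℤ) := by exact_mod_cast Nat.pos_of_ne_zero (NeZero.ne d)
    have hmat : triMat (d : ℤ) 0 1 hd0 one_pos = dilMat d := by
      apply Units.ext
      ext i j
      fin_cases i <;> fin_cases j <;> simp [triMat, dilMat]
    rw [← hmat, coe_triMat_smul, hτ']
    simp
  show jfun (dilMat d • τ) = iota c
  rw [h1, hc]

end Fermat.Agent.S15.Dict

end
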